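/-
KL-A, block BASES (owner helper167): the base coordinates `j` (`ℓ ≥ 5`), `h₂` (`ℓ = 3`, `2 ∣ M`),
`h₃` (`ℓ = 2`, `3 ∣ M`) packaged as `BaseData`.
-/
import Fermat.Agent.S18.ModDefs
import Fermat.Agent.Lib.Hauptmodul.Bar

set_option autoImplicit false

noncomputable section

namespace Fermat.Agent.S18.Base

open Polynomial IntermediateField ModularCurve AlgebraicCurve Fermat.Agent.S24
open Fermat.Agent.S24.FF Fermat.Agent.Lib.Hauptmodul

/-! ### the inverse coordinate -/

section Inv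

variable {K F : Type*} [Field K] [Field F] [Algebra K F]

/-- at a point where `x⁻¹ = c ≠ 0`, the function `x⁻¹ - c` has the same order as `x - c⁻¹`. -/
theorem ord_inv_sub (x : F) (v : Place K F) (c : K) (hc : c ≠ 0)
    (hv : 0 < v.ord (x⁻¹ - algebraMap K F c)) :
    v.ord (x⁻¹ - algebraMap K F c) = v.ord (x - algebraMap K F c⁻¹) := by
  set C : F := algebraMap K F c with hC
  have hC0 : C ≠ 0 := (_root_.map_ne_zero _).mpr hc
  have hCo : v.ord C = 0 := ord_algebraMap v c
  have hx : x ≠ 0 := by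
    rintro rfl
    rw [inv_zero, zero_sub, ord_neg, hCo] at hv
    exact lt_irrefl _ hv
  have hxi : v.ord x⁻¹ = 0 := by
    have h1 : v.ord (C + (x⁻¹ - C)) = v.ord C := ord_add_eq_of_lt v hC0 (by rw [hCo]; exact hv)
    rw [add_sub_cancel, hCo] at h1
    exact h1
  have hd : x⁻¹ - C ≠ 0 := ne_zero_of_ord_ne_zero v hv.ne'
  have hd' : x - algebraMap K F c⁻¹ ≠ 0 := by
    intro h0
    apply hd
    rw [sub_eq_zero] at h0
    rw [h0, map_inv₀, inv_inv, sub_self]
  have e : x⁻¹ - C = (-C * x⁻¹) * (x - algebraMap K F c⁻¹) := by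
    rw [map_inv₀, ← hC]
    field_simp
    ring
  have hne : -C * x⁻¹ ≠ 0 := mul_ne_zero (neg_ne_zero.mpr hC0) (inv_ne_zero hx)
  rw [e, v.ord_mul hne hd', v.ord_mul (neg_ne_zero.mpr hC0) (inv_ne_zero hx), ord_neg, hCo, hxi]
  simp

end Inv

/-! ### Laurent series over `ℤ` of the shape `q^{±1} * unit` -/

section Series

/-- `q^e * u` -/
def mkX (e : ℤ) (u : PowerSeries ℤ) : LaurentSeries ℤ := HahnSeries.single e 1 * toL ℤ u

theorem mkX_mul_inv (e : ℤ) (u : PowerSeries ℤ) (hu : PowerSeries.constantCoeff u = 1) :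
    mkX e u * mkX (-e) (u.invOfUnit 1) = 1 := by
  unfold mkX
  have h1 : (HahnSeries.single e (1 : ℤ) : LaurentSeries ℤ) * HahnSeries.single (-e) 1 = 1 := by
    rw [HahnSeries.single_mul_single]
    simp
  calc _ = ((HahnSeries.single e (1 : ℤ) : LaurentSeries ℤ) * HahnSeries.single (-e) 1) *
        (toL ℤ u * toL ℤ (u.invOfUnit 1)) := by ring
    _ = 1 := by rw [h1, toL_mul_toL_invOfUnit ℤ u hu, one_mul]

theorem coeff_mkX_self (e : ℤ) (u : PowerSeries ℤ) (hu : PowerSeries.constantCoeff u = 1) :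
    (mkX e u).coeff e = 1 := by
  unfold mkX
  rw [HahnSeries.coeff_single_mul, one_mul, sub_self]
  have h := toL_coeff_natCast ℤ u 0
  rw [Nat.cast_zero] at h
  rw [h, PowerSeries.coeff_zero_eq_constantCoeff_apply, hu]
  rfl

theorem coeff_mkX_of_lt (e : ℤ) (u : PowerSeries ℤ) {k : ℤ} (hk : k < e) :
    (mkX e u).coeff k = 0 := by
  unfold mkX
  rw [HahnSeries.coeff_single_mul, one_mul]
  exact toL_coeff_of_neg _ _ (by omega)

theorem order_mkX (e : ℤ) (u : PowerSeries ℤ) (hu : PowerSeries.constantCoeff u = 1) :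
    (mkX e u).order = e := by
  have hne : mkX e u ≠ 0 := by
    intro h
    have := coeff_mkX_self e u hu
    rw [h] at this
    simp at this
  apply le_antisymm
  · exact HahnSeries.order_le_of_coeff_ne_zero (by rw [coeff_mkX_self e u hu]; exact one_ne_zero)
  · by_contra hlt
    rw [not_le] at hlt
    exact hne (HahnSeries.coeff_order_eq_zero.mp (coeff_mkX_of_lt e u hlt))

theorem coeffMap_mkX {S : Type*} [CommRing S] (f : ℤ →+* S) (e : ℤ) (u : PowerSeries ℤ) :
    coeffMap f (mkX e u) = HahnSeries.single e 1 * toL S u := by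
  unfold mkX
  rw [map_mul, coeffMap_single, map_one, coeffMap_toL]

theorem coeffMap_mkX_one (u : PowerSeries ℤ) :
    coeffMap (Int.castRingHom ℚ) (mkX 1 u) = toL ℚ (PowerSeries.X * u) := by
  rw [coeffMap_mkX, map_mul, toL_X]

theorem coeffMap_mkX_jNum : coeffMap (Int.castRingHom ℚ) (mkX (-1) jNum) = jq := by
  rw [coeffMap_mkX, jq_eq]

end Series

/-! ### separability of the branch polynomials -/

section Sep

variable {R : Type*} [CommRing R]

/-- `a X² + b X` is separable as soon as `b` is a unit. -/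
theorem separable_quad (a b : R) (hb : IsUnit b) :
    (C a * X ^ 2 + C b * X : R[X]).Separable := by
  obtain ⟨b', hb'⟩ := hb.exists_left_inv
  have hd : derivative (C a * X ^ 2 + C b * X : R[X]) = C (2 * a) * X + C b := by
    simp only [derivative_add, derivative_mul, derivative_C, derivative_X_pow, derivative_X,
      zero_mul, zero_add, mul_one, map_mul]
    simp
    ring
  rw [Polynomial.separable_def, hd]
  refine ⟨C (-(4 * a) * (b' * b')), C (b' * b') * (C (2 * a) * X + C b), ?_⟩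
  have h1 : (C (b' * b') : R[X]) * (C b * C b) = 1 := by
    rw [← C_mul, ← C_mul, show b' * b' * (b * b) = (b' * b) * (b' * b) by ring, hb', one_mul, C_1]
  calc _ = (C (b' * b') : R[X]) * (C b * C b) := by
        simp only [C_mul, C_neg, map_ofNat]
        ring
    _ = 1 := h1

end Sep

/-! ### the builder -/

section Build

theorem map_quad {S : Type*} [CommRing S] (f : ℤ →+* S) (a b : ℤ) :
    (C a * X ^ 2 + C b * X : ℤ[X]).map f = C (f a) * X ^ 2 + C (f b) * X := by
  simp only [Polynomial.map_add, Polynomial.map_mul, Polynomial.map_pow, Polynomial.map_C,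
    Polynomial.map_X]

theorem eval_quad_ne {a b : ℤ} {c : Kbar}
    (h : ((C a * X ^ 2 + C b * X : ℤ[X]).map (Int.castRingHom Kbar)).eval c ≠ 0) :
    c ≠ 0 ∧ (a : Kbar) * c + b ≠ 0 := by
  rw [map_quad] at h
  simp only [eval_add, eval_mul, eval_C, eval_pow, eval_X, eq_intCast] at h
  constructor
  · rintro rfl
    simp at h
  · intro h0
    apply h
    linear_combination c * h0

/-- A coordinate `x = q^e * unit` of a subfield containing `j`, such that `FN M / ℚ̄(x)` is
unramified outside `x = 0, ∞, -b/a`, with `a`, `b` units mod `ℓ`. -/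
theorem nonempty_baseData_of (M ℓ : ℕ) (e : ℤ) (he : e ≠ 0) (u : PowerSeries ℤ)
    (hu : PowerSeries.constantCoeff u = 1)
    (mem : coeffMap (Int.castRingHom ℚ) (mkX e u) ∈ modularFunctionFieldFull M)
    (j_mem : jq ∈ ℚ⟮coeffMap (Int.castRingHom ℚ) (mkX e u)⟯)
    (x : FN M)
    (hx : (x : LaurentSeries Kbar) = coeffEmb Kbar (coeffMap (Int.castRingHom ℚ) (mkX e u)))
    (a b : ℤ) (ha : IsUnit (a : ZMod ℓ)) (hb : IsUnit (b : ZMod ℓ))
    (ram : ∀ (v : Place Kbar (FN M)) (c : Kbar), c ≠ 0 → (a : Kbar) * c + b ≠ 0 →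
      0 < v.ord (x - algebraMap Kbar (FN M) c) → v.ord (x - algebraMap Kbar (FN M) c) = 1) :
    Nonempty (BaseData M ℓ) := by
  have hxe : (⟨_, coeffEmb_mem_laurentBaseChange Kbar mem⟩ : FN M) = x := Subtype.ext hx.symm
  refine ⟨{
    X := mkX e u
    Xinv := mkX (-e) (u.invOfUnit 1)
    mul_inv := mkX_mul_inv e u hu
    order_ne := by rw [order_mkX e u hu]; exact he
    mem := mem
    j_mem := j_mem
    g₁ := C a * X ^ 2 + C b * X
    g₂ := C b * X ^ 2 + C a * X
    sep₁ := by
      rw [map_quad]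
      exact separable_quad _ _ (by simpa using hb)
    sep₂ := by
      rw [map_quad]
      exact separable_quad _ _ (by simpa using ha)
    ram₁ := ?_
    ram₂ := ?_ }⟩
  · intro v c hc hv
    rw [hxe] at hv ⊢
    obtain ⟨h0, h1⟩ := eval_quad_ne hc
    exact ram v c h0 h1 hv
  · intro v c hc hv
    rw [hxe] at hv ⊢
    obtain ⟨h0, h1⟩ := eval_quad_ne hc
    have e1 := ord_inv_sub x v c h0 hv
    rw [e1] at hv ⊢
    refine ram v c⁻¹ (inv_ne_zero h0) ?_ hv
    intro h2
    apply h1
    field_simp at h2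
    linear_combination h2

end Build

/-! ### the three bases -/

theorem isUnit_1728 {ℓ : ℕ} (hℓ : ℓ.Prime) (h5 : 5 ≤ ℓ) : IsUnit ((-1728 : ℤ) : ZMod ℓ) := by
  have h1 : Nat.Coprime 1728 ℓ := by
    rw [Nat.coprime_comm, hℓ.coprime_iff_not_dvd]
    intro h
    have h2 : ℓ ∣ 2 ^ 6 * 3 ^ 3 := by norm_num; exact h
    rcases (hℓ.dvd_mul).1 h2 with h3 | h3
    · have := Nat.le_of_dvd (by norm_num) (hℓ.dvd_of_dvd_pow h3)
      omega
    · have := Nat.le_of_dvd (by norm_num) (hℓ.dvd_of_dvd_pow h3)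
      omega
  have h2 := (ZMod.isUnit_iff_coprime 1728 ℓ).2 h1
  have h3 : ((-1728 : ℤ) : ZMod ℓ) = -((1728 : ℕ) : ZMod ℓ) := by push_cast; rfl
  rw [h3]
  exact h2.neg

theorem nonempty_baseData_j (M ℓ : ℕ) [NeZero M] (hℓ : ℓ.Prime) (h5 : 5 ≤ ℓ) :
    Nonempty (BaseData M ℓ) := by
  refine nonempty_baseData_of M ℓ (-1) (by norm_num) jNum constantCoeff_jNum ?_ ?_ (jF M) ?_
    1 (-1728) (by simp) (isUnit_1728 hℓ h5) ?_
  · rw [coeffMap_mkX_jNum]
    have h := jqd_mem_full M (one_dvd M)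
    rwa [qExpand_one_apply] at h
  · rw [coeffMap_mkX_jNum]
    exact mem_adjoin_simple_self ℚ jq
  · rw [coeffMap_mkX_jNum]
    exact Bar.coe_jF M
  · intro v c h0 h1 hv
    refine Export.ord_jF_sub_eq_one M c h0 ?_ v hv
    rintro rfl
    apply h1
    push_cast
    ring

theorem nonempty_baseData_h2 (M : ℕ) [NeZero M] (h2 : 2 ∣ M) : Nonempty (BaseData M 3) := by
  have e : coeffMap (Int.castRingHom ℚ) (mkX 1 u2Z) = h2q := coeffMap_mkX_one u2Z
  refine nonempty_baseData_of M 3 1 one_ne_zero u2Z constantCoeff_u2Z ?_ ?_ (h2F M h2) ?_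
    64 1 (by decide) (by decide) ?_
  · rw [e]
    exact full_degeneracy_le h2 h2q_mem
  · rw [e]
    have hne : h2q ≠ 0 := by
      intro h
      have := coeff_h2q_one
      rw [h] at this
      simp at this
    have h1 : jq = (1 + 256 * h2q) ^ 3 / h2q := by
      rw [eq_div_iff hne]
      exact jq_mul_h2q
    rw [h1]
    have hm := mem_adjoin_simple_self ℚ h2q
    exact div_mem (pow_mem (add_mem (one_mem _) (mul_mem (by
      have := _root_.natCast_mem ℚ⟮h2q⟯ 256
      simpa using this) hm)) 3) hm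
  · rw [e]
    rfl
  · intro v c h0 h1 hv
    exact ord_h2F_sub_eq_one M h2 c h0 (by simpa using h1) v hv

theorem nonempty_baseData_h3 (M : ℕ) [NeZero M] (h3 : 3 ∣ M) : Nonempty (BaseData M 2) := by
  have e : coeffMap (Int.castRingHom ℚ) (mkX 1 u3Z) = h3q := coeffMap_mkX_one u3Z
  refine nonempty_baseData_of M 2 1 one_ne_zero u3Z constantCoeff_u3Z ?_ ?_ (h3F M h3) ?_
    27 1 (by decide) (by decide) ?_
  · rw [e]
    exact full_degeneracy_le h3 h3q_mem
  · rw [e]
    have hne : h3q ≠ 0 := by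
      intro h
      have := coeff_h3q_one
      rw [h] at this
      simp at this
    have h1 : jq = (1 + 27 * h3q) * (1 + 243 * h3q) ^ 3 / h3q := by
      rw [eq_div_iff hne]
      exact jq_mul_h3q
    rw [h1]
    have hm := mem_adjoin_simple_self ℚ h3q
    exact div_mem (mul_mem (add_mem (one_mem _) (mul_mem (by
      have := _root_.natCast_mem ℚ⟮h3q⟯ 27
      simpa using this) hm)) (pow_mem (add_mem (one_mem _) (mul_mem (by
      have := _root_.natCast_mem ℚ⟮h3q⟯ 243
      simpa using this) hm)) 3)) hm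
  · rw [e]
    rfl
  · intro v c h0 h1 hv
    exact ord_h3F_sub_eq_one M h3 c h0 (by simpa using h1) v hv

end Fermat.Agent.S18.Base
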