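/-
KL-A, block COORD (task KLA-BASECOORD, helper245): the base coordinate `x` of a `BaseData` is a good
coordinate: transcendental, `K(j) ≤ K(x)`, transcendental reduction.
-/
import Mathlib
import Fermat.Agent.S18.Defs
import Fermat.Agent.S18.ModDefs

set_option autoImplicit false

noncomputable section

namespace Fermat.Agent.S18

open Polynomial IntermediateField ModularCurve AlgebraicCurve Fermat.Agent.S24

namespace Coord

/-! ### Laurent series: generalities -/

/-- an integral (= algebraic) element of `k((q))` over `k` is a power series. -/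
theorem exists_powerSeries_of_isIntegral {k : Type*} [Field k] {Y : LaurentSeries k}
    (hY : IsIntegral k Y) : ∃ f : PowerSeries k, (f : LaurentSeries k) = Y := by
  have h1 : IsIntegral (PowerSeries k) Y := by
    obtain ⟨p, hp, he⟩ := hY
    refine ⟨p.map (algebraMap k (PowerSeries k)), hp.map _, ?_⟩
    rw [eval₂_map]
    have : (algebraMap (PowerSeries k) (LaurentSeries k)).comp (algebraMap k (PowerSeries k))
        = algebraMap k (LaurentSeries k) := by
      ext1 x
      rw [HahnSeries.algebraMap_apply', RingHom.comp_apply, LaurentSeries.coe_algebraMap]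
    rw [this]
    exact he
  obtain ⟨f, hf⟩ := IsIntegrallyClosed.isIntegral_iff.mp h1
  exact ⟨f, hf⟩

/-- a Laurent series of nonzero order is transcendental over the constants. -/
theorem transcendental_of_order_ne_zero {k : Type*} [Field k] {Y : LaurentSeries k}
    (hY : Y.order ≠ 0) : Transcendental k Y := by
  intro halg
  have hY0 : Y ≠ 0 := by
    rintro rfl
    exact hY HahnSeries.order_zero
  obtain ⟨f, hf⟩ := exists_powerSeries_of_isIntegral halg.isIntegral
  obtain ⟨g, hg⟩ := exists_powerSeries_of_isIntegral halg.inv.isIntegral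
  have hfg : f * g = 1 := by
    apply HahnSeries.ofPowerSeries_injective (Γ := ℤ)
    rw [map_mul, map_one]
    change (f : LaurentSeries k) * (g : LaurentSeries k) = 1
    rw [hf, hg, mul_inv_cancel₀ hY0]
  have hc : PowerSeries.constantCoeff f ≠ 0 := by
    intro h0
    have := congrArg PowerSeries.constantCoeff hfg
    rw [map_mul, h0, zero_mul, map_one] at this
    exact zero_ne_one this
  apply hY
  apply le_antisymm
  · apply HahnSeries.order_le_of_coeff_ne_zero
    rw [← hf, PowerSeries.coeff_coe]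
    simpa using hc
  · by_contra hlt
    rw [not_le] at hlt
    apply (HahnSeries.coeff_order_eq_zero (x := Y)).not.mpr hY0
    subst hf
    rw [PowerSeries.coeff_coe, if_pos hlt]

theorem algebraMap_eq_single {R : Type*} [CommRing R] (c : R) :
    algebraMap R (LaurentSeries R) c = HahnSeries.single 0 c := by
  have h1 : algebraMap R (PowerSeries R) c = PowerSeries.C c := by
    simp
  rw [HahnSeries.algebraMap_apply', h1, HahnSeries.ofPowerSeries_C]
  rfl

theorem coeffMap_algebraMap' {R S : Type*} [CommRing R] [CommRing S] (f : R →+* S) (c : R) :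
    coeffMap f (algebraMap R (LaurentSeries R) c) = algebraMap S (LaurentSeries S) (f c) := by
  rw [algebraMap_eq_single, algebraMap_eq_single, coeffMap_single]

/-- `coeffMap` commutes with the evaluation of polynomials. -/
theorem coeffMap_aeval {R S : Type*} [CommRing R] [CommRing S] (f : R →+* S)
    (Y : LaurentSeries R) (p : R[X]) :
    coeffMap f (aeval Y p) = aeval (coeffMap f Y) (p.map f) := by
  rw [aeval_def, aeval_def, hom_eval₂, eval₂_map]
  congr 1
  ext1 c
  exact coeffMap_algebraMap' f c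

theorem coeffMap_injective {R S : Type*} [CommRing R] [CommRing S] {f : R →+* S}
    (hf : Function.Injective f) : Function.Injective (coeffMap f) := by
  intro x y h
  ext k
  apply hf
  rw [← coeffMap_coeff, ← coeffMap_coeff, h]

/-! ### An invertible integral series of nonzero order -/

section Pair

variable {Y Yinv : LaurentSeries ℤ}

theorem isUnit_leadingCoeff (hmul : Y * Yinv = 1) : IsUnit Y.leadingCoeff := by
  have h := HahnSeries.leadingCoeff_mul Y Yinv
  rw [hmul, HahnSeries.leadingCoeff_one] at h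
  exact IsUnit.of_mul_eq_one _ h.symm

theorem order_inv_ne (hmul : Y * Yinv = 1) (hord : Y.order ≠ 0) : Yinv.order ≠ 0 := by
  have hY : Y ≠ 0 := by
    rintro rfl
    exact hord HahnSeries.order_zero
  have hYi : Yinv ≠ 0 := by
    rintro rfl
    rw [mul_zero] at hmul
    exact zero_ne_one hmul
  have h := HahnSeries.order_mul hY hYi
  rw [hmul, HahnSeries.order_one] at h
  omega

theorem order_coeffMap (hmul : Y * Yinv = 1) {R : Type*} [CommRing R] [Nontrivial R]
    (φ : ℤ →+* R) : (coeffMap φ Y).order = Y.order := by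
  have hu : (coeffMap φ Y).coeff Y.order ≠ 0 := by
    rw [coeffMap_coeff, ← HahnSeries.leadingCoeff_eq]
    exact ((isUnit_leadingCoeff hmul).map φ).ne_zero
  have h0 : coeffMap φ Y ≠ 0 := by
    intro h
    rw [h] at hu
    exact hu rfl
  apply le_antisymm (HahnSeries.order_le_of_coeff_ne_zero hu)
  by_contra hlt
  rw [not_le] at hlt
  apply (HahnSeries.coeff_order_eq_zero (x := coeffMap φ Y)).not.mpr h0
  rw [coeffMap_coeff, HahnSeries.coeff_eq_zero_of_lt_order hlt, map_zero]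

theorem transcendental_coeffMap (hmul : Y * Yinv = 1) (hord : Y.order ≠ 0) {k : Type*} [Field k]
    (φ : ℤ →+* k) : Transcendental k (coeffMap φ Y) :=
  transcendental_of_order_ne_zero (by rw [order_coeffMap hmul]; exact hord)

end Pair

/-! ### Discrete valuation rings -/

section Unif

variable {K₀ : Type*} [Field K₀] {A₀ : ValuationSubring K₀} {ϖ₀ : K₀}

theorem unif_ne_zero (h₀ : IsUnif A₀ ϖ₀) : ϖ₀ ≠ 0 := by
  rintro rfl
  apply h₀.inv_notMem
  rw [inv_zero]
  exact A₀.zero_mem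

/-- an element of `A₀` which is not divisible by the uniformiser is a unit. -/
theorem inv_mem_of_div_notMem (h₀ : IsUnif A₀ ϖ₀) {c : K₀} (hc : c / ϖ₀ ∉ A₀) : c⁻¹ ∈ A₀ := by
  have hϖ := unif_ne_zero h₀
  have hc0 : c ≠ 0 := by
    rintro rfl
    apply hc
    rw [zero_div]
    exact A₀.zero_mem
  obtain ⟨n, h1, h2⟩ := h₀.exists_zpow c hc0
  rcases le_or_gt n 0 with hn | hn
  · obtain ⟨m, rfl⟩ : ∃ m : ℕ, n = -(m : ℤ) := ⟨(-n).toNat, by omega⟩
    have h3 : c⁻¹ = (c / ϖ₀ ^ (-(m : ℤ)))⁻¹ * ϖ₀ ^ m := by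
      rw [zpow_neg, zpow_natCast]
      field_simp
    rw [h3]
    exact A₀.mul_mem _ _ h2 (A₀.pow_mem h₀.mem m)
  · exfalso
    apply hc
    obtain ⟨m, rfl⟩ : ∃ m : ℕ, n = (m : ℤ) + 1 := ⟨(n - 1).toNat, by omega⟩
    have h3 : c / ϖ₀ = (c / ϖ₀ ^ ((m : ℤ) + 1)) * ϖ₀ ^ m := by
      rw [zpow_add₀ hϖ, zpow_natCast, zpow_one]
      field_simp
    rw [h3]
    exact A₀.mul_mem _ _ h1 (A₀.pow_mem h₀.mem m)

theorem residue_ne_zero_of_div_notMem (h₀ : IsUnif A₀ ϖ₀) (c : A₀) (hc : (c : K₀) / ϖ₀ ∉ A₀) :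
    IsLocalRing.residue A₀ c ≠ 0 := by
  have h1 := inv_mem_of_div_notMem h₀ hc
  have hc0 : (c : K₀) ≠ 0 := by
    intro h
    apply hc
    rw [h, zero_div]
    exact A₀.zero_mem
  have hu : IsUnit c := by
    refine IsUnit.of_mul_eq_one ⟨(c : K₀)⁻¹, h1⟩ ?_
    apply Subtype.ext
    show (c : K₀) * (c : K₀)⁻¹ = 1
    exact mul_inv_cancel₀ hc0
  rw [Ne, IsLocalRing.residue_eq_zero_iff]
  exact fun h => (IsLocalRing.mem_maximalIdeal _).1 h hu

end Unif

/-! ### The coordinate attached to an invertible integral series -/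

section Gen

variable {K₀ : Type*} [Field K₀] {A₀ : ValuationSubring K₀} {ϖ₀ : K₀}
  {L : IntermediateField K₀ (LaurentSeries K₀)} {Ow : ValuationSubring L}
  {Y Yinv : LaurentSeries ℤ}

theorem coeffMap_subtype_castA (Y : LaurentSeries ℤ) :
    coeffMap A₀.subtype (coeffMap (Int.castRingHom A₀) Y) = coeffMap (Int.castRingHom K₀) Y := by
  rw [coeffMap_coeffMap]
  exact coeffMap_congr (RingHom.ext_int _ _) Y

theorem mem_of_gauss (hG : IsGauss A₀ ϖ₀ L Ow) (hY : coeffMap (Int.castRingHom K₀) Y ∈ L) :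
    (⟨_, hY⟩ : L) ∈ Ow := by
  have hP : coeffMap A₀.subtype (coeffMap (Int.castRingHom A₀) Y) ∈ L := by
    rw [coeffMap_subtype_castA]; exact hY
  have h := hG.mem (coeffMap (Int.castRingHom A₀) Y) hP
  have he : (⟨_, hP⟩ : L) = ⟨_, hY⟩ := Subtype.ext (coeffMap_subtype_castA Y)
  rwa [he] at h

theorem transc_of_gauss (h₀ : IsUnif A₀ ϖ₀) (hG : IsGauss A₀ ϖ₀ L Ow) (hmul : Y * Yinv = 1)
    (hord : Y.order ≠ 0) (hY : coeffMap (Int.castRingHom K₀) Y ∈ L) (p : K₀[X])
    (hp : ∀ i, p.coeff i ∈ A₀)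
    (hdiv : aeval (⟨_, hY⟩ : L) p / algebraMap K₀ L ϖ₀ ∈ Ow) (i : ℕ) : p.coeff i / ϖ₀ ∈ A₀ := by
  by_contra hi
  -- lift `p` to `A₀[X]`
  obtain ⟨p₀, hp₀⟩ : ∃ p₀ : A₀[X], p₀.map A₀.subtype = p := by
    have : p ∈ Polynomial.lifts A₀.subtype := by
      rw [Polynomial.lifts_iff_coeff_lifts]
      intro n
      exact ⟨⟨p.coeff n, hp n⟩, rfl⟩
    exact this
  set P : LaurentSeries A₀ := aeval (coeffMap (Int.castRingHom A₀) Y) p₀ with hPdef
  have hPK : coeffMap A₀.subtype P = ((aeval (⟨_, hY⟩ : L) p : L) : LaurentSeries K₀) := by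
    rw [hPdef, coeffMap_aeval, hp₀, coeffMap_subtype_castA]
    exact Polynomial.aeval_algHom_apply L.val (⟨_, hY⟩ : L) p
  have hPL : coeffMap A₀.subtype P ∈ L := by
    rw [hPK]; exact (aeval (⟨_, hY⟩ : L) p : L).2
  have hPe : (⟨_, hPL⟩ : L) = aeval (⟨_, hY⟩ : L) p := Subtype.ext hPK
  -- the reduction of `P` does not vanish
  have hred : coeffMap (IsLocalRing.residue A₀) P ≠ 0 := by
    rw [hPdef, coeffMap_aeval, coeffMap_coeffMap]
    intro h
    have htr := transcendental_coeffMap hmul hord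
      ((IsLocalRing.residue A₀).comp (Int.castRingHom A₀))
    have h0 := (transcendental_iff.mp htr) _ h
    have h1 := congrArg (fun r => r.coeff i) h0
    simp only [coeff_map, coeff_zero] at h1
    refine residue_ne_zero_of_div_notMem h₀ (p₀.coeff i) ?_ h1
    have : ((p₀.coeff i : A₀) : K₀) = p.coeff i := by
      rw [← hp₀, coeff_map]; rfl
    rw [this]
    exact hi
  have hinv := hG.inv_mem P hPL hred
  rw [hPe] at hinv
  have hne : aeval (⟨_, hY⟩ : L) p ≠ 0 := by
    intro h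
    apply hred
    have : P = 0 := by
      apply coeffMap_injective (f := A₀.subtype) Subtype.val_injective
      rw [hPK, h, map_zero]; rfl
    rw [this, map_zero]
  apply hG.unif.inv_notMem
  have h3 : (algebraMap K₀ L ϖ₀)⁻¹ =
      aeval (⟨_, hY⟩ : L) p / algebraMap K₀ L ϖ₀ * (aeval (⟨_, hY⟩ : L) p)⁻¹ := by
    field_simp
  rw [h3]
  exact Ow.mul_mem _ _ hdiv hinv

end Gen

theorem adjoin_inv' {K F : Type*} [Field K] [Field F] [Algebra K F] (x : F) :
    K⟮x⁻¹⟯ = K⟮x⟯ := by
  apply le_antisymm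
  · rw [adjoin_simple_le_iff]
    exact inv_mem (mem_adjoin_simple_self K x)
  · rw [adjoin_simple_le_iff]
    have h := inv_mem (mem_adjoin_simple_self K x⁻¹)
    rwa [inv_inv] at h

theorem coe_xK {M ℓ : ℕ} (D : BaseData M ℓ) (K : Type*) [Field K] [Algebra ℚ K] :
    ((D.xK K : FK K M) : LaurentSeries K) = coeffMap (Int.castRingHom K) D.X := by
  show coeffEmb K (coeffMap (Int.castRingHom ℚ) D.X) = _
  rw [coeffEmb, coeffMap_coeffMap]
  exact coeffMap_congr (RingHom.ext_int _ _) D.X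

theorem castX_mem {M ℓ : ℕ} (D : BaseData M ℓ) (K : Type*) [Field K] [Algebra ℚ K] :
    coeffMap (Int.castRingHom K) D.X ∈ FK K M := by
  rw [← coe_xK]; exact (D.xK K).2

theorem xK_eq {M ℓ : ℕ} (D : BaseData M ℓ) (K : Type*) [Field K] [Algebra ℚ K] :
    D.xK K = ⟨_, castX_mem D K⟩ := Subtype.ext (coe_xK D K)

theorem castXinv_eq {M ℓ : ℕ} (D : BaseData M ℓ) (K : Type*) [Field K] [Algebra ℚ K] :
    coeffMap (Int.castRingHom K) D.Xinv = (((D.xK K)⁻¹ : FK K M) : LaurentSeries K) := by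
  have h := congrArg (coeffMap (Int.castRingHom K)) D.mul_inv
  rw [map_mul, map_one, ← coe_xK] at h
  have h2 : (((D.xK K)⁻¹ : FK K M) : LaurentSeries K) = ((D.xK K : FK K M) : LaurentSeries K)⁻¹ :=
    rfl
  rw [h2]
  exact eq_inv_of_mul_eq_one_right h

theorem castXinv_mem {M ℓ : ℕ} (D : BaseData M ℓ) (K : Type*) [Field K] [Algebra ℚ K] :
    coeffMap (Int.castRingHom K) D.Xinv ∈ FK K M := by
  rw [castXinv_eq]; exact ((D.xK K)⁻¹).2

theorem xK_inv_eq {M ℓ : ℕ} (D : BaseData M ℓ) (K : Type*) [Field K] [Algebra ℚ K] :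
    (D.xK K)⁻¹ = ⟨_, castXinv_mem D K⟩ := Subtype.ext (castXinv_eq D K).symm

theorem coeffEmb_algebraMap' (K : Type*) [Field K] [Algebra ℚ K] (r : ℚ) :
    coeffEmb K (algebraMap ℚ (LaurentSeries ℚ) r) =
      algebraMap K (LaurentSeries K) (algebraMap ℚ K r) := by
  rw [algebraMap_laurentSeries_eq_single, algebraMap_laurentSeries_eq_single, coeffEmb,
    coeffMap_single]

end Coord

open Coord

/-! ## Block COORD -/
section COORD

variable {K₀ : Type*} [Field K₀] [Algebra ℚ K₀] {A₀ : ValuationSubring K₀} {ϖ₀ : K₀}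

theorem adjoin_jK_le {M ℓ : ℕ} (D : BaseData M ℓ) (K : Type*) [Field K] [Algebra ℚ K] :
    K⟮jK K M⟯ ≤ K⟮D.xK K⟯ := by
  rw [adjoin_simple_le_iff]
  have key : ∀ y ∈ ℚ⟮coeffMap (Int.castRingHom ℚ) D.X⟯,
      coeffEmb K y ∈ K⟮((D.xK K : FK K M) : LaurentSeries K)⟯ := by
    intro y hy
    induction hy using IntermediateField.adjoin_induction with
    | mem y hy =>
      rw [Set.mem_singleton_iff] at hy
      subst hy
      exact mem_adjoin_simple_self K _
    | algebraMap r =>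
      rw [coeffEmb_algebraMap']
      exact IntermediateField.algebraMap_mem _ _
    | add y z _ _ hy hz => rw [map_add]; exact add_mem hy hz
    | inv y _ hy => rw [map_inv₀]; exact inv_mem hy
    | mul y z _ _ hy hz => rw [map_mul]; exact mul_mem hy hz
  have h1 := key jq D.j_mem
  have h2 : K⟮((D.xK K : FK K M) : LaurentSeries K)⟯ = (K⟮D.xK K⟯).map (FK K M).val := by
    rw [IntermediateField.adjoin_map, Set.image_singleton]
    rfl
  rw [h2] at h1
  obtain ⟨a, ha, hfa⟩ := h1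
  have : a = jK K M := Subtype.ext hfa
  exact this ▸ ha

theorem transcendental_xK {M ℓ : ℕ} (D : BaseData M ℓ) (K : Type*) [Field K] [Algebra ℚ K] :
    Transcendental K (D.xK K) := by
  rintro ⟨p, hp, h0⟩
  refine transcendental_coeffMap D.mul_inv D.order_ne (Int.castRingHom K) ⟨p, hp, ?_⟩
  have h := congrArg (FK K M).val h0
  rw [← Polynomial.aeval_algHom_apply, map_zero] at h
  rw [← coe_xK]
  exact h

theorem isCoord_base (h₀ : IsUnif A₀ ϖ₀) {M ℓ : ℕ} (D : BaseData M ℓ)
    {Ow : ValuationSubring (FK K₀ M)} (hG : IsGauss A₀ ϖ₀ (FK K₀ M) Ow) :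
    IsCoord A₀ ϖ₀ Ow K₀⟮D.xK K₀⟯ (D.xK K₀) where
  adjoin_eq := rfl
  mem := by
    rw [xK_eq]
    exact mem_of_gauss hG (castX_mem D K₀)
  transc := by
    intro p hp hdiv i
    rw [xK_eq] at hdiv
    exact transc_of_gauss h₀ hG D.mul_inv D.order_ne (castX_mem D K₀) p hp hdiv i

theorem isCoord_base_inv (h₀ : IsUnif A₀ ϖ₀) {M ℓ : ℕ} (D : BaseData M ℓ)
    {Ow : ValuationSubring (FK K₀ M)} (hG : IsGauss A₀ ϖ₀ (FK K₀ M) Ow) :
    IsCoord A₀ ϖ₀ Ow K₀⟮D.xK K₀⟯ (D.xK K₀)⁻¹ where
  adjoin_eq := adjoin_inv' _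
  mem := by
    rw [xK_inv_eq]
    exact mem_of_gauss hG (castXinv_mem D K₀)
  transc := by
    intro p hp hdiv i
    rw [xK_inv_eq] at hdiv
    have hmul : D.Xinv * D.X = 1 := by rw [mul_comm]; exact D.mul_inv
    exact transc_of_gauss h₀ hG hmul (order_inv_ne D.mul_inv D.order_ne) (castXinv_mem D K₀) p hp
      hdiv i

/-- a polynomial over `ℤ`, separable mod `ℓ`, is squarefree over the residue field of `A₀`. -/
theorem squarefree_map_residue {ℓ : ℕ} [Fact ℓ.Prime] (h₀ : IsUnif A₀ ϖ₀)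
    (hℓA : (ℓ : K₀) / ϖ₀ ∈ A₀) (g : ℤ[X]) (hg : (g.map (Int.castRingHom (ZMod ℓ))).Separable) :
    Squarefree ((g.map (Int.castRingHom A₀)).map (IsLocalRing.residue A₀)) := by
  have hϖ := unif_ne_zero h₀
  -- `ℓ = 0` in the residue field
  have hℓ0 : ((ℓ : ℕ) : IsLocalRing.ResidueField A₀) = 0 := by
    have h1 : IsLocalRing.residue A₀ (ℓ : A₀) = 0 := by
      rw [IsLocalRing.residue_eq_zero_iff, IsLocalRing.mem_maximalIdeal, mem_nonunits_iff]
      intro hu
      obtain ⟨u, hu⟩ := hu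
      apply h₀.inv_notMem
      have h2 : ((u⁻¹ : A₀ˣ) : A₀) * (ℓ : A₀) = 1 := by rw [← hu]; exact u.inv_mul
      have h3 : (((u⁻¹ : A₀ˣ) : A₀) : K₀) * (ℓ : K₀) = 1 := by
        have := congrArg (Subtype.val) h2
        simpa using this
      have h4 : ϖ₀⁻¹ = (((u⁻¹ : A₀ˣ) : A₀) : K₀) * ((ℓ : K₀) / ϖ₀) := by
        rw [← mul_div_assoc, h3, one_div]
      rw [h4]
      exact A₀.mul_mem _ _ (((u⁻¹ : A₀ˣ) : A₀)).2 hℓA
    rw [map_natCast] at h1
    exact h1
  have : CharP (IsLocalRing.ResidueField A₀) ℓ :=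
    (CharP.charP_iff_prime_eq_zero (Fact.out : ℓ.Prime)).mpr hℓ0
  have he : (g.map (Int.castRingHom A₀)).map (IsLocalRing.residue A₀) =
      (g.map (Int.castRingHom (ZMod ℓ))).map (ZMod.castHom (dvd_refl ℓ)
        (IsLocalRing.ResidueField A₀)) := by
    rw [Polynomial.map_map, Polynomial.map_map]
    congr 1
    exact RingHom.ext_int _ _
  rw [he]
  exact (hg.map).squarefree

end COORD

end Fermat.Agent.S18
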