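/-
KL-A, block BASES (task KLA-BASEJ, owner helper116): the base coordinate `x = j` for `ℓ ≥ 5`.
-/
import Mathlib
import Fermat.Agent.S18.ModDefs
import Fermat.Agent.S24.FFBasic
import Fermat.Agent.S24.Export.Ramification
import Fermat.Prelude.Def_ModularCurve_X0ModL

set_option autoImplicit false

noncomputable section

namespace Fermat.Agent.S18

open Polynomial IntermediateField ModularCurve AlgebraicCurve Fermat.Agent.S24

namespace BaseJ

/-- the inverse of `j` as an integral Laurent series -/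
def jInvZ : LaurentSeries ℤ :=
  HahnSeries.single (1 : ℤ) 1 * HahnSeries.ofPowerSeries ℤ ℤ (jNum.invOfUnit 1)

theorem jqModC_mul_jInvZ : jqModC ℤ * jInvZ = 1 := by
  have h1 : jNum * jNum.invOfUnit 1 = 1 :=
    PowerSeries.mul_invOfUnit _ _ (by rw [constantCoeff_jNum]; rfl)
  have h0 : jNum.map (Int.castRingHom ℤ) = jNum := by
    ext n
    simp
  rw [jqModC, jInvZ, h0, mul_mul_mul_comm, ← map_mul (HahnSeries.ofPowerSeries ℤ ℤ), h1,
    map_one (HahnSeries.ofPowerSeries ℤ ℤ), mul_one, HahnSeries.single_mul_single]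
  simp

theorem order_jqModC_ne : (jqModC ℤ).order ≠ 0 := by
  have h : (jqModC ℤ).order ≤ -1 :=
    HahnSeries.order_le_of_coeff_ne_zero (by rw [coeff_jqModC_neg_one]; exact one_ne_zero)
  omega

theorem coeffMap_eq_jq : coeffMap (Int.castRingHom ℚ) (jqModC ℤ) = jq := by
  rw [coeffMap_jqModC]
  rfl

theorem coeffMap_mem (M : ℕ) :
    coeffMap (Int.castRingHom ℚ) (jqModC ℤ) ∈ modularFunctionFieldFull M := by
  rw [coeffMap_eq_jq]
  have h := jqd_mem_full M (one_dvd M)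
  rwa [qExpand_one_apply] at h

theorem elt_eq_jF (M : ℕ)
    (h : coeffMap (Int.castRingHom ℚ) (jqModC ℤ) ∈ modularFunctionFieldFull M) :
    (⟨_, coeffEmb_mem_laurentBaseChange Kbar h⟩ : FN M) = jF M := by
  apply Subtype.ext
  show coeffEmb Kbar (coeffMap (Int.castRingHom ℚ) (jqModC ℤ)) = coeffEmb Kbar (qExpand ℚ 1 jq)
  rw [coeffMap_eq_jq, qExpand_one_apply]

/-- the branch polynomial on the chart `j ≠ ∞` -/
def g₁ : ℤ[X] := X * (X - C 1728)

/-- the branch polynomial on the chart `j ≠ 0` -/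
def g₂ : ℤ[X] := X * (1 - C 1728 * X)

theorem cast_1728_ne_zero (ℓ : ℕ) (hℓ : ℓ.Prime) (h5 : 5 ≤ ℓ) : (1728 : ZMod ℓ) ≠ 0 := by
  intro h
  have h1 : ((1728 : ℕ) : ZMod ℓ) = 0 := by exact_mod_cast h
  rw [ZMod.natCast_eq_zero_iff] at h1
  have h2 : ℓ ∣ 2 ^ 6 * 3 ^ 3 := by norm_num; exact h1
  rcases (Nat.Prime.dvd_mul hℓ).1 h2 with h3 | h3
  · have := Nat.le_of_dvd (by norm_num) (hℓ.dvd_of_dvd_pow h3)
    omega
  · have := Nat.le_of_dvd (by norm_num) (hℓ.dvd_of_dvd_pow h3)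
    omega

theorem separable_aux₁ {R : Type*} [CommRing R] (a u : R) (hu : u * a ^ 2 = 1) :
    (X * (X - C a) : R[X]).Separable := by
  rw [separable_def]
  have hd : derivative (X * (X - C a) : R[X]) = 2 * X - C a := by
    simp only [derivative_mul, derivative_X, derivative_sub, derivative_C]
    ring
  rw [hd]
  refine ⟨-4 * C u, C u * (2 * X - C a), ?_⟩
  have h1 : (C u * C a ^ 2 : R[X]) = 1 := by
    rw [← C_pow, ← C_mul, hu, C_1]
  rw [← h1]
  ring

theorem separable_aux₂ {R : Type*} [CommRing R] (a : R) :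
    (X * (1 - C a * X) : R[X]).Separable := by
  rw [separable_def]
  have hd : derivative (X * (1 - C a * X) : R[X]) = 1 - 2 * C a * X := by
    simp only [derivative_mul, derivative_X, derivative_sub, derivative_C, derivative_one]
    ring
  rw [hd]
  refine ⟨4 * C a, 1 - 2 * C a * X, ?_⟩
  ring

theorem sep₁ (ℓ : ℕ) (hℓ : ℓ.Prime) (h5 : 5 ≤ ℓ) :
    (g₁.map (Int.castRingHom (ZMod ℓ))).Separable := by
  have : Fact ℓ.Prime := ⟨hℓ⟩
  have ha := cast_1728_ne_zero ℓ hℓ h5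
  have hmap : g₁.map (Int.castRingHom (ZMod ℓ)) = X * (X - C (1728 : ZMod ℓ)) := by
    rw [g₁, Polynomial.map_mul, Polynomial.map_sub, Polynomial.map_X, Polynomial.map_C]
    simp
  rw [hmap]
  exact separable_aux₁ _ (((1728 : ZMod ℓ) ^ 2)⁻¹) (inv_mul_cancel₀ (pow_ne_zero 2 ha))

theorem sep₂ (ℓ : ℕ) : (g₂.map (Int.castRingHom (ZMod ℓ))).Separable := by
  have hmap : g₂.map (Int.castRingHom (ZMod ℓ)) = X * (1 - C (1728 : ZMod ℓ) * X) := by
    rw [g₂, Polynomial.map_mul, Polynomial.map_sub, Polynomial.map_mul, Polynomial.map_X,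
      Polynomial.map_C, Polynomial.map_one]
    simp
  rw [hmap]
  exact separable_aux₂ _

theorem eval_g₁ (c : Kbar) :
    (g₁.map (Int.castRingHom Kbar)).eval c = c * (c - 1728) := by
  simp [g₁]

theorem eval_g₂ (c : Kbar) :
    (g₂.map (Int.castRingHom Kbar)).eval c = c * (1 - 1728 * c) := by
  simp [g₂]

theorem ram₁ (M : ℕ) [NeZero M] (v : Place Kbar (FN M)) (c : Kbar)
    (hc : (g₁.map (Int.castRingHom Kbar)).eval c ≠ 0)
    (hv : 0 < v.ord (jF M - algebraMap Kbar (FN M) c)) :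
    v.ord (jF M - algebraMap Kbar (FN M) c) = 1 := by
  rw [eval_g₁] at hc
  have h0 : c ≠ 0 := left_ne_zero_of_mul hc
  have h1 : c ≠ 1728 := fun h => (right_ne_zero_of_mul hc) (by rw [h, sub_self])
  exact Export.ord_jF_sub_eq_one M c h0 h1 v hv

theorem ram₂ (M : ℕ) [NeZero M] (v : Place Kbar (FN M)) (c : Kbar)
    (hc : (g₂.map (Int.castRingHom Kbar)).eval c ≠ 0)
    (hv : 0 < v.ord ((jF M)⁻¹ - algebraMap Kbar (FN M) c)) :
    v.ord ((jF M)⁻¹ - algebraMap Kbar (FN M) c) = 1 := by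
  rw [eval_g₂] at hc
  have h0 : c ≠ 0 := left_ne_zero_of_mul hc
  have h1 : c⁻¹ ≠ 1728 := by
    intro h
    apply right_ne_zero_of_mul hc
    rw [← h, inv_mul_cancel₀ h0, sub_self]
  set x : FN M := jF M with hx
  set a : FN M := algebraMap Kbar (FN M) c with ha
  have ha0 : a ≠ 0 := by
    rw [ha]
    exact (_root_.map_ne_zero _).2 h0
  have hoa : v.ord a = 0 := FF.ord_algebraMap v c
  -- `ord x⁻¹ = 0`
  have hy : v.ord x⁻¹ = 0 := by
    have h := FF.ord_add_eq_of_lt v (f := a) (g := x⁻¹ - a) ha0 (by rw [hoa]; exact hv)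
    rw [add_sub_cancel] at h
    rw [h, hoa]
  have hd0 : x⁻¹ - a ≠ 0 := FF.ne_zero_of_ord_ne_zero v hv.ne'
  have hx0 : x ≠ 0 := by
    intro h
    rw [h, inv_zero, zero_sub, FF.ord_neg, hoa] at hv
    exact lt_irrefl _ hv
  have hox : v.ord x = 0 := by
    have := v.ord_inv x
    omega
  have hainv : algebraMap Kbar (FN M) c⁻¹ = a⁻¹ := by rw [ha, map_inv₀]
  have key : x - algebraMap Kbar (FN M) c⁻¹ = -(a⁻¹ * x * (x⁻¹ - a)) := by
    rw [hainv]
    field_simp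
    ring
  have hord : v.ord (x - algebraMap Kbar (FN M) c⁻¹) = v.ord (x⁻¹ - a) := by
    rw [key, FF.ord_neg, v.ord_mul (mul_ne_zero (inv_ne_zero ha0) hx0) hd0,
      v.ord_mul (inv_ne_zero ha0) hx0, v.ord_inv, hoa, hox]
    ring
  rw [← hord]
  exact Export.ord_jF_sub_eq_one M c⁻¹ (inv_ne_zero h0) h1 v (by rw [hord]; exact hv)

end BaseJ

theorem nonempty_baseData_j (M ℓ : ℕ) [NeZero M] (hℓ : ℓ.Prime) (h5 : 5 ≤ ℓ) :
    Nonempty (BaseData M ℓ) := by
  refine ⟨{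
    X := jqModC ℤ
    Xinv := BaseJ.jInvZ
    mul_inv := BaseJ.jqModC_mul_jInvZ
    order_ne := BaseJ.order_jqModC_ne
    mem := BaseJ.coeffMap_mem M
    j_mem := by
      rw [BaseJ.coeffMap_eq_jq]
      exact mem_adjoin_simple_self ℚ jq
    g₁ := BaseJ.g₁
    g₂ := BaseJ.g₂
    sep₁ := BaseJ.sep₁ ℓ hℓ h5
    sep₂ := BaseJ.sep₂ ℓ
    ram₁ := ?_
    ram₂ := ?_ }⟩
  · intro v c hc
    rw [BaseJ.elt_eq_jF M (BaseJ.coeffMap_mem M)]
    exact BaseJ.ram₁ M v c hc
  · intro v c hc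
    rw [BaseJ.elt_eq_jF M (BaseJ.coeffMap_mem M)]
    exact BaseJ.ram₂ M v c hc

end Fermat.Agent.S18
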